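import Fermat.Agent.Imai.Main
import Fermat.Agent.GalCoh.Support
import Fermat.Agent.FlatModel.Descent

/-!
# Descent from `F (μ_∞)` to a finite extension of `F (μ_{p^∞})`

Let `j` be everywhere integral. One open subgroup `H` of the Galois group of `ℚ`, inside the one
of `F`, has the following property for every `p`: a point of `p`-power order fixed by all
automorphisms fixing `F` and all roots of unity is fixed by the elements of `H` fixing enough roots
of unity of `p`-power order. At a prime `q ≠ p` inertia fixes such a point and takes every value of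
the `q`-adic cyclotomic character on `H`.
-/

set_option autoImplicit false
set_option linter.unusedSectionVars false
set_option linter.style.haveILetI false

noncomputable section

open WeierstrassCurve FA.TateSen FA.Frob FA.EC FA.Local FA.RT.Tate FA.JTorsion
open scoped WeierstrassCurve.Affine Classical Pointwise

namespace FA.CycTorsion

local notation "Qb" => AlgebraicClosure ℚ
local notation "GQ" => AlgebraicClosure ℚ ≃ₐ[ℚ] AlgebraicClosure ℚ

variable {W : WeierstrassCurve ℤ}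

/-- The point is fixed by the automorphisms fixing `F` and all roots of unity. -/
def FixedOverCyc (F : IntermediateField ℚ Qb) (P : Pts W) : Prop :=
  ∀ σ : GQ, σ ∈ F.fixingSubgroup → (∀ (n : ℕ) (z : Qb), 0 < n → z ^ n = 1 → σ z = z) → σ • P = P

/-- The automorphisms fixing the roots of unity of order dividing `m`. -/
def fixMu (m : ℕ) : Subgroup GQ :=
  (IntermediateField.adjoin ℚ {z : Qb | z ^ m = 1}).fixingSubgroup

theorem mem_fixMu {m : ℕ} {σ : GQ} : σ ∈ fixMu m ↔ ∀ z : Qb, z ^ m = 1 → σ z = z := by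
  refine ⟨fun h z hz => (IntermediateField.mem_fixingSubgroup_iff _ _).1 h z
    (IntermediateField.subset_adjoin _ _ hz), fun h => ?_⟩
  rw [fixMu, IntermediateField.mem_fixingSubgroup_iff]
  have hle : IntermediateField.adjoin ℚ {z : Qb | z ^ m = 1} ≤
      IntermediateField.fixedField (Subgroup.zpowers σ) := by
    refine IntermediateField.adjoin_le_iff.2 fun z hz => ?_
    rw [SetLike.mem_coe, IntermediateField.mem_fixedField_iff]
    exact fun τ hτ => Subgroup.zpowers_le.2 (show σ ∈ MulAction.stabilizer GQ z from h z hz) hτ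
  exact fun x hx => (IntermediateField.mem_fixedField_iff _ _).1 (hle hx) σ
    (Subgroup.mem_zpowers σ)

variable [(ratCurve W).IsElliptic]

theorem isOpen_stab (P : Pts W) : IsOpen (MulAction.stabilizer GQ P : Set GQ) := by
  obtain ⟨S, hS, hfix⟩ := FA.KDR.exists_open_stabiliser P
  haveI := hS.to_subtype
  have : FiniteDimensional ℚ (IntermediateField.adjoin ℚ S) :=
    IntermediateField.finiteDimensional_adjoin fun x _ => Algebra.IsIntegral.isIntegral x
  exact Subgroup.isOpen_mono (fun σ hσ => MulAction.mem_stabilizer_iff.2 (hfix σ fun x hx =>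
    (IntermediateField.mem_fixingSubgroup_iff _ _).1 hσ x (IntermediateField.subset_adjoin _ _ hx)))
    (IntermediateField.fixingSubgroup_isOpen (IntermediateField.adjoin ℚ S))

/-- One level of roots of unity suffices. -/
theorem exists_level {F : IntermediateField ℚ Qb} {P : Pts W} (hP : FixedOverCyc F P) :
    ∃ M : ℕ, 0 < M ∧ ∀ σ ∈ F.fixingSubgroup, σ ∈ fixMu M → σ • P = P := by
  set Z : ℕ → Set GQ := fun n => ((F.fixingSubgroup : Set GQ) ∩ (fixMu n.factorial : Set GQ)) \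
    (MulAction.stabilizer GQ P : Set GQ) with hZ
  have hclosed : ∀ n, IsClosed (Z n) := fun n =>
    ((InfiniteGalois.fixingSubgroup_isClosed _).inter
      (InfiniteGalois.fixingSubgroup_isClosed _)).sdiff (isOpen_stab P)
  obtain ⟨n, hn⟩ : ∃ n, Z n = ∅ := by
    by_contra hne
    push Not at hne
    obtain ⟨σ, hσ⟩ := IsCompact.nonempty_iInter_of_sequence_nonempty_isCompact_isClosed Z
      (fun n σ hσ => ⟨⟨hσ.1.1, mem_fixMu.2 fun z hz => mem_fixMu.1 hσ.1.2 z (by
        rw [Nat.factorial_succ, mul_comm, pow_mul, hz, one_pow])⟩, hσ.2⟩)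
      hne (hclosed 0).isCompact hclosed
    rw [Set.mem_iInter] at hσ
    refine (hσ 0).2 (hP σ (hσ 0).1.1 fun m z hm hz => mem_fixMu.1 (hσ m).1.2 z ?_)
    obtain ⟨c, hc⟩ := Nat.dvd_factorial hm le_rfl
    rw [hc, pow_mul, hz, one_pow]
  refine ⟨n.factorial, n.factorial_pos, fun σ hσ hσn => ?_⟩
  by_contra hne
  exact Set.eq_empty_iff_forall_notMem.1 hn σ ⟨⟨hσ, hσn⟩, hne⟩

/-- Equal values of the character, equal action on the roots of unity. -/
theorem apply_eq_of_cycP {q : ℕ} [Fact q.Prime] {σ τ : GQ} (h : cycP q σ = cycP q τ) {e : ℕ}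
    {z : Qb} (hz : z ^ q ^ e = 1) : σ z = τ z := by
  have h1 : ((cycP q σ : ℤ_[q]ˣ) : ℤ_[q]) = ((cycP q τ : ℤ_[q]ˣ) : ℤ_[q]) := by rw [h]
  have hσ := cyclotomicCharacter.spec q (σ : Qb ≃+* Qb) z hz
  have hτ := cyclotomicCharacter.spec q (τ : Qb ≃+* Qb) z hz
  refine hσ.trans (Eq.trans ?_ hτ.symm)
  exact congrArg (fun u : ℤ_[q] => z ^ (u.toZModPow e).val) h1

/-- Inertia at `q` is inside the decomposition group of the chosen place. -/
theorem exists_loc_of_inertia {q : ℕ} [Fact q.Prime] {σ : GQ}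
    (hσ : σ ∈ (padicPlace q).inertiaSubgroupIn ℚ) :
    ∃ τ ∈ FA.GalCoh.inertL q, localGaloisToGlobal q τ = σ := by
  obtain ⟨τ, hτ⟩ : σ ∈ (FA.GalCoh.loc q).range := by
    rw [FA.GalCoh.range_loc]
    exact FA.GalCoh.inertiaSubgroupIn_le_decomposition _ hσ
  exact ⟨τ, show localGaloisToGlobal q τ ∈ _ from hτ.symm ▸ hσ, hτ⟩

/-- The values of the cyclotomic character on inertia in an open subgroup. -/
def inertiaValues (q : ℕ) [Fact q.Prime] (U : Subgroup GQ) : Subgroup ℤ_[q]ˣ :=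
  ((U.comap (localGaloisToGlobal q)).subgroupOf (FA.PadicChar.inertiaGal q)).map
    ((chi q).comp (FA.PadicChar.inertiaGal q).subtype)

theorem mem_inertiaValues {q : ℕ} [Fact q.Prime] {U : Subgroup GQ} {u : ℤ_[q]ˣ} :
    u ∈ inertiaValues q U ↔ ∃ τ ∈ FA.PadicChar.inertiaGal q,
      localGaloisToGlobal q τ ∈ U ∧ chi q τ = u := by
  rw [inertiaValues, Subgroup.mem_map]
  exact ⟨fun ⟨τ, hτ, h⟩ => ⟨τ.1, τ.2, hτ, h⟩, fun ⟨τ, hI, hτ, h⟩ => ⟨⟨τ, hI⟩, hτ, h⟩⟩

theorem isOpen_inertiaValues {q : ℕ} [Fact q.Prime] {U : Subgroup GQ}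
    (hU : IsOpen (U : Set GQ)) : IsOpen (inertiaValues q U : Set ℤ_[q]ˣ) := by
  set I := FA.PadicChar.inertiaGal q
  have hV : IsOpen
      ((U.comap (localGaloisToGlobal q)) : Set (PadicAlgCl q ≃ₐ[ℚ_[q]] PadicAlgCl q)) :=
    hU.preimage FA.GalCoh.continuous_loc
  have hclosed : IsClosed (inertiaValues q U : Set ℤ_[q]ˣ) := by
    have e : (inertiaValues q U : Set ℤ_[q]ˣ) =
        chi q '' ((I : Set _) ∩ (U.comap (localGaloisToGlobal q) : Set _)) := by
      ext u
      rw [SetLike.mem_coe, mem_inertiaValues]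
      exact ⟨fun ⟨τ, a, b, c⟩ => ⟨τ, ⟨a, b⟩, c⟩, fun ⟨τ, ⟨a, b⟩, c⟩ => ⟨τ, a, b, c⟩⟩
    rw [e]
    exact (((InfiniteGalois.fixingSubgroup_isClosed _).inter
      (Subgroup.isClosed_of_isOpen _ hV)).isCompact.image continuous_chi).isClosed
  have hsurj : Function.Surjective ((chi q).comp I.subtype) := fun u => by
    obtain ⟨σ, rfl⟩ := FA.AbelianGeometric.chi_surjective u
    obtain ⟨τ, hτ, h⟩ := FA.PadicChar.exists_mem_inertia_chi σ
    exact ⟨⟨τ, hτ⟩, h⟩
  have : Finite ((PadicAlgCl q ≃ₐ[ℚ_[q]] PadicAlgCl q) ⧸ U.comap (localGaloisToGlobal q)) :=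
    Subgroup.quotient_finite_of_isOpen _ hV
  have : (U.comap (localGaloisToGlobal q)).FiniteIndex :=
    Subgroup.finiteIndex_of_finite_quotient
  have : (inertiaValues q U).FiniteIndex :=
    ⟨fun h0 => Subgroup.FiniteIndex.index_ne_zero
      (H := (U.comap (localGaloisToGlobal q)).subgroupOf I)
      (Nat.eq_zero_of_zero_dvd (h0 ▸ Subgroup.index_map_dvd _ hsurj))⟩
  exact Subgroup.isOpen_of_isClosed_of_finiteIndex _ hclosed

/-- **The open subgroup.** -/
theorem exists_subgroup (hj : ∀ l : ℕ, l.Prime → 0 ≤ padicValRat l (ratCurve W).j)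
    (F : IntermediateField ℚ Qb) [FiniteDimensional ℚ F] :
    ∃ (H : Subgroup GQ) (b : ℕ), IsOpen (H : Set GQ) ∧ H ≤ F.fixingSubgroup ∧
      (∀ (q : ℕ) [Fact q.Prime], b < q → (padicPlace q).inertiaSubgroupIn ℚ ≤ H) ∧
      ∀ (q : ℕ) [Fact q.Prime], ∀ σ ∈ H, ∃ τ ∈ H, τ ∈ (padicPlace q).inertiaSubgroupIn ℚ ∧
        cycP q τ = cycP q σ ∧ ∀ (p n : ℕ) (P : Pts W), p.Prime → p ≠ q → p ^ n • P = 0 →
          τ • P = P := by
  obtain ⟨S, hS⟩ := FA.GalCoh.exists_inertL_subset (N := F.fixingSubgroup)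
    ⟨F, inferInstance, le_rfl⟩
  have hΔ : W.Δ ≠ 0 := fun h => (ratCurve W).isUnit_Δ.ne_zero (by simp [ratCurve, h])
  set b := (S.image fun q : Nat.Primes => (q : ℕ)).sup id + W.Δ.natAbs with hb
  have hFix : ∀ (q : ℕ) [Fact q.Prime], b < q →
      (padicPlace q).inertiaSubgroupIn ℚ ≤ F.fixingSubgroup := fun q hq hbq σ hσ => by
    obtain ⟨τ, hτ, rfl⟩ := exists_loc_of_inertia hσ
    refine hS ⟨q, hq.out⟩ (fun hmem => ?_) τ hτ
    have h1 : q ≤ (S.image fun q : Nat.Primes => (q : ℕ)).sup id :=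
      Finset.le_sup (f := id) (Finset.mem_image.2 ⟨_, hmem, rfl⟩)
    omega
  -- fields for the primes up to the bound
  have hfield : ∀ q : ℕ, ∃ K : IntermediateField ℚ Qb, FiniteDimensional ℚ K ∧
      ∀ [Fact q.Prime], ∀ σ ∈ (padicPlace q).inertiaSubgroupIn ℚ, (∀ x ∈ K, σ x = x) →
        ∀ (p n : ℕ) (P : Pts W), p.Prime → p ≠ q → p ^ n • P = 0 → σ • P = P := fun q => by
    by_cases hq : q.Prime
    · haveI := Fact.mk hq
      obtain ⟨K, hK, hKfix⟩ := FA.Summary.exists_field_inertia_fixes_torsion (ratCurve W)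
        (hj q hq) (FA.GalCoh.liesOverPrime_padicPlace q)
      exact ⟨K, hK, fun σ hσ hfix p n P hp hpq hP => hKfix σ hσ hfix p hp hpq n P hP⟩
    · exact ⟨⊥, inferInstance, @fun h => absurd h.out hq⟩
  choose K hKf hK using hfield
  set U : ℕ → Subgroup GQ := fun q => F.fixingSubgroup ⊓ (K q).fixingSubgroup
  have hUopen : ∀ q, IsOpen (U q : Set GQ) := fun q =>
    haveI := hKf q
    (IntermediateField.fixingSubgroup_isOpen F).inter
      (IntermediateField.fixingSubgroup_isOpen (K q))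
  set T : ℕ → Subgroup GQ := fun q =>
    if hq : q.Prime ∧ q ≤ b then
      haveI := Fact.mk hq.1
      (inertiaValues q (U q)).comap (cycP q)
    else ⊤ with hT
  set H : Subgroup GQ := F.fixingSubgroup ⊓ ⨅ q ∈ Finset.range (b + 1), T q with hH
  have hcont : ∀ (q : ℕ) [Fact q.Prime], Continuous (cycP q) := fun q _ =>
    cyclotomicCharacter.continuous q ℚ Qb
  have hTopen : ∀ q, IsOpen (T q : Set GQ) := fun q => by
    by_cases hq : q.Prime ∧ q ≤ b
    · haveI := Fact.mk hq.1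
      simp only [hT, dif_pos hq]
      exact (isOpen_inertiaValues (hUopen q)).preimage (hcont q)
    · simp only [hT, dif_neg hq]
      exact isOpen_univ
  have hmemH : ∀ {σ : GQ}, σ ∈ H ↔ σ ∈ F.fixingSubgroup ∧
      ∀ (q : ℕ) [Fact q.Prime], q ≤ b → cycP q σ ∈ inertiaValues q (U q) := by
    intro σ
    simp only [hH, Subgroup.mem_inf, Subgroup.mem_iInf, Finset.mem_range]
    refine and_congr Iff.rfl ⟨fun h q hq hqb => ?_, fun h q _ => ?_⟩
    · have h1 := h q (by omega)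
      simp only [hT, dif_pos (show q.Prime ∧ q ≤ b from ⟨hq.out, hqb⟩)] at h1
      exact h1
    · by_cases hq : q.Prime ∧ q ≤ b
      · haveI := Fact.mk hq.1
        simp only [hT, dif_pos hq]
        exact h q hq.2
      · simp only [hT, dif_neg hq]
        trivial
  refine ⟨H, b, ?_, inf_le_left, fun q hq hbq σ hσ => hmemH.2 ⟨hFix q hbq hσ,
    fun l hl hlb => ?_⟩, fun q hq σ hσ => ?_⟩
  · rw [hH, Subgroup.coe_inf]
    refine (IntermediateField.fixingSubgroup_isOpen F).inter ?_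
    simp only [Subgroup.coe_iInf]
    exact (Finset.range (b + 1)).finite_toSet.isOpen_biInter fun q _ => hTopen q
  · rw [cycP_inertia l hq.out (by omega) (FA.GalCoh.liesOverPrime_padicPlace q) hσ]
    exact one_mem _
  by_cases hqb : q ≤ b
  · obtain ⟨τ, hI, hτU, hτ⟩ := mem_inertiaValues.1 ((hmemH.1 hσ).2 q hqb)
    have hI' := FA.PotDR.loc_mem_inertia hI
    refine ⟨localGaloisToGlobal q τ, hmemH.2 ⟨hτU.1, fun l hl hlb => ?_⟩, hI',
      by rw [FA.AbelianGeometric.cycP_loc, hτ], fun p n P hp hpq hP =>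
        hK q _ hI' (fun x hx => (IntermediateField.mem_fixingSubgroup_iff _ _).1 hτU.2 x hx)
          p n P hp hpq hP⟩
    rcases eq_or_ne q l with rfl | hql
    · rw [FA.AbelianGeometric.cycP_loc]
      exact mem_inertiaValues.2 ⟨τ, hI, hτU, rfl⟩
    · rw [cycP_inertia l hq.out hql (FA.GalCoh.liesOverPrime_padicPlace q) hI']
      exact one_mem _
  · obtain ⟨σ', hσ'⟩ := FA.AbelianGeometric.chi_surjective (cycP q σ)
    obtain ⟨τ, hI, hτ⟩ := FA.PadicChar.exists_mem_inertia_chi σ'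
    have hI' := FA.PotDR.loc_mem_inertia hI
    have hgood : W.IsGoodPrimeFor q := fun h => by
      have := Nat.le_of_dvd (Int.natAbs_pos.mpr hΔ) (Int.natCast_dvd.mp h)
      omega
    refine ⟨localGaloisToGlobal q τ, hmemH.2 ⟨hFix q (by omega) hI', fun l hl hlb => ?_⟩, hI',
      by rw [FA.AbelianGeometric.cycP_loc, hτ, hσ'], fun p n P hp hpq hP => ?_⟩
    · rw [cycP_inertia l hq.out (by omega) (FA.GalCoh.liesOverPrime_padicPlace q) hI']
      exact one_mem _
    · haveI := Fact.mk hp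
      exact smul_eq_of_good hq.out (FA.GalCoh.liesOverPrime_padicPlace q) hpq.symm hgood hI' hP

/-- **The descent**: the elements of `H` fixing the roots of unity of order dividing a power of
`p` fix the point. -/
theorem exists_level_descent {F : IntermediateField ℚ Qb} {H : Subgroup GQ}
    (hHF : H ≤ F.fixingSubgroup)
    (hprop : ∀ (q : ℕ) [Fact q.Prime], ∀ σ ∈ H, ∃ τ ∈ H, τ ∈ (padicPlace q).inertiaSubgroupIn ℚ ∧
      cycP q τ = cycP q σ ∧ ∀ (p n : ℕ) (P : Pts W), p.Prime → p ≠ q → p ^ n • P = 0 → τ • P = P)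
    {p : ℕ} [hp : Fact p.Prime] {P : Pts W} {k : ℕ} (hk : p ^ k • P = 0)
    (hP : FixedOverCyc F P) :
    ∃ e : ℕ, ∀ σ ∈ H, σ ∈ fixMu (p ^ e) → σ • P = P := by
  obtain ⟨M, hM, hMfix⟩ := exists_level hP
  suffices key : ∀ m, m ≠ 0 → m ∣ M → ∀ σ ∈ H, σ ∈ fixMu (p ^ M) → ∃ τ ∈ H, τ • P = P ∧
      (∀ z : Qb, z ^ m = 1 → τ z = σ z) ∧
      ∀ (n : ℕ) (z : Qb), Nat.Coprime n m → z ^ n = 1 → τ z = z by
    refine ⟨M, fun σ hσ hσp => ?_⟩
    obtain ⟨τ, hτH, hτP, hagree, -⟩ := key M hM.ne' dvd_rfl σ hσ hσp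
    have h1 : (τ⁻¹ * σ) • P = P := hMfix _ (hHF (mul_mem (inv_mem hτH) hσ))
      (mem_fixMu.2 fun z hz => by
        rw [AlgEquiv.mul_apply, ← hagree z hz, ← AlgEquiv.mul_apply, inv_mul_cancel,
          AlgEquiv.one_apply])
    rw [mul_smul, inv_smul_eq_iff, hτP] at h1
    exact h1
  intro m
  induction m using Nat.recOnPrimeCoprime with
  | zero => exact fun h => absurd rfl h
  | prime_pow q e hq =>
    intro _ hdvd σ hσ hσp
    haveI := Fact.mk hq
    rcases eq_or_ne e 0 with rfl | he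
    · exact ⟨1, one_mem _, one_smul _ _, fun z hz => by
        rw [pow_zero, pow_one] at hz; rw [hz, map_one, map_one], fun _ _ _ _ => rfl⟩
    rcases eq_or_ne q p with rfl | hqp
    · refine ⟨1, one_mem _, one_smul _ _, fun z hz => (mem_fixMu.1 hσp z ?_).symm,
        fun _ _ _ _ => rfl⟩
      have hle : e ≤ M := (Nat.lt_pow_self hq.one_lt).le.trans (Nat.le_of_dvd hM hdvd)
      rw [← Nat.sub_add_cancel hle, pow_add, mul_comm, pow_mul, hz, one_pow]
    · obtain ⟨τ, hτH, hτI, hτc, hτfix⟩ := hprop q σ hσ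
      refine ⟨τ, hτH, hτfix p k P hp.out (Ne.symm hqp) hk, fun z hz => apply_eq_of_cycP hτc hz,
        fun n z hn hz => FA.FlatModel.inertia_fixes hq (FA.GalCoh.liesOverPrime_padicPlace q)
          (fun hd => hq.ne_one (Nat.eq_one_of_dvd_one (hn ▸ Nat.dvd_gcd hd
            (dvd_pow_self q he)))) hτI hz⟩
  | coprime a b ha hb hab iha ihb =>
    intro _ hdvd σ hσ hσp
    obtain ⟨τa, haH, haP, haz, haf⟩ :=
      iha (by omega) (dvd_trans (dvd_mul_right a b) hdvd) σ hσ hσp
    obtain ⟨τb, hbH, hbP, hbz, hbf⟩ :=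
      ihb (by omega) (dvd_trans (dvd_mul_left b a) hdvd) σ hσ hσp
    refine ⟨τa * τb, mul_mem haH hbH, by rw [mul_smul, hbP, haP], fun z hz => ?_,
      fun n z hn hz => ?_⟩
    · obtain ⟨u, v, huv⟩ : ∃ u v : ℤ, u * a + v * b = 1 :=
        ⟨_, _, (Int.isCoprime_iff_gcd_eq_one.2 (by simpa using hab)).choose_spec.choose_spec⟩
      have hz0 : z ≠ 0 := fun h0 => by
        rw [h0, zero_pow (Nat.mul_ne_zero (by omega) (by omega))] at hz
        exact zero_ne_one hz
      have e : z = (z ^ a) ^ u * (z ^ b) ^ v := by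
        rw [← zpow_natCast z a, ← zpow_natCast z b, ← zpow_mul, ← zpow_mul, ← zpow_add₀ hz0,
          mul_comm (a : ℤ), mul_comm (b : ℤ), huv, zpow_one]
      have h1 : (z ^ a) ^ b = 1 := by rw [← pow_mul, hz]
      have h2 : (z ^ b) ^ a = 1 := by rw [← pow_mul, mul_comm, hz]
      rw [e, map_mul, map_zpow₀, map_zpow₀, map_mul σ, map_zpow₀ σ, map_zpow₀ σ,
        AlgEquiv.mul_apply, AlgEquiv.mul_apply, hbz _ h1, hbf a _ hab h2,
        haz _ h2, haf b _ hab.symm (by rw [← map_pow, h1, map_one])]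
    · rw [AlgEquiv.mul_apply, hbf n z (hn.coprime_mul_left_right) hz,
        haf n z (hn.coprime_mul_right_right) hz]

end FA.CycTorsion
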