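import Fermat.Agent.CyclotomicTorsion.Descent
import Fermat.Agent.RT.CurveResidual
import Fermat.Agent.Root.SummaryTorsionNumberField

/-!
# The large primes

At a good prime `p ≠ 2` inertia acts on the `p`-torsion either with the eigenvalue one or through
a character of order `p ^ 2 - 1`. The second leaves no point of order `p` fixed by the automorphisms
fixing `F` and all roots of unity, and the first makes every element of the open subgroup `H` fix a
point of order `p`, so that `p` divides one number of points.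
-/

set_option autoImplicit false
set_option linter.unusedSectionVars false
set_option linter.style.haveILetI false

noncomputable section

open Matrix WeierstrassCurve FA.Frob FA.EC FA.Local FA.RT FA.RT.Tate FA.JTorsion
open scoped WeierstrassCurve.Affine Classical Pointwise

namespace FA.CycTorsion

local notation "Qb" => AlgebraicClosure ℚ
local notation "GQ" => AlgebraicClosure ℚ ≃ₐ[ℚ] AlgebraicClosure ℚ
local notation "M2" => Matrix (Fin 2) (Fin 2)

variable {W : WeierstrassCurve ℤ} [(ratCurve W).IsElliptic] {p : ℕ} [hp : Fact p.Prime]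

/-- The action on the coordinates of the points of order `p`. -/
theorem curveRep_coords {σ : GQ} {P : Pts W} (hP : p • P = 0) :
    ∃ hσP : p • (σ • P) = 0,
      curveRep p W σ *ᵥ (torsBasis (p := p) W).equivFun ⟨P, (mem_torsion_iff W).2 hP⟩ =
        (torsBasis (p := p) W).equivFun ⟨σ • P, (mem_torsion_iff W).2 hσP⟩ :=
  ⟨by rw [← FA.RT.Tate.gal_smul_nsmul, hP, gal_smul_zero], toMatrix_mulVec W _⟩

/-- An element with the eigenvalue one fixes a point of order `p`. -/
theorem exists_fixed_of_det {σ : GQ} (h : (curveRep p W σ - 1).det = 0) :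
    ∃ Q : Pts W, p • Q = 0 ∧ Q ≠ 0 ∧ σ • Q = Q := by
  obtain ⟨v, hv, hv0⟩ := Matrix.exists_mulVec_eq_zero_iff.2 h
  obtain ⟨x, rfl⟩ := (torsBasis (p := p) W).equivFun.surjective v
  rw [sub_mulVec, one_mulVec, sub_eq_zero, toMatrix_mulVec W] at hv0
  exact ⟨x.1, (mem_torsion_iff W).1 x.2, fun h0 => hv (by
      rw [show x = 0 from Subtype.ext h0, map_zero]),
    congrArg Subtype.val ((torsBasis (p := p) W).equivFun.injective hv0)⟩

/-- An eigenvalue of a matrix with the eigenvalue one is one or the determinant; so a matrix of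
the same determinant with the same eigenvector has the eigenvalue one. -/
theorem det_sub_one_of_eigen {k : Type*} [Field k] {M T : M2 k} {v : Fin 2 → k} (hv : v ≠ 0)
    {c : k} (hT : T *ᵥ v = c • v) (hM : M *ᵥ v = c • v) (hd : M.det = T.det) (hd0 : T.det ≠ 0)
    (h1 : (T - 1).det = 0) : (M - 1).det = 0 := by
  have key : ∀ X : M2 k, X *ᵥ v = c • v → X.det - c * X.trace + c ^ 2 = 0 := fun X hX => by
    have h := Matrix.exists_mulVec_eq_zero_iff.1 ⟨v, hv, show (X - c • 1) *ᵥ v = 0 by
      rw [sub_mulVec, smul_mulVec, one_mulVec, hX, sub_self]⟩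
    simp [Matrix.det_fin_two, Matrix.trace_fin_two] at h ⊢
    linear_combination h
  have e : ∀ X : M2 k, (X - 1).det = X.det - X.trace + 1 := fun X => by
    simp [Matrix.det_fin_two, Matrix.trace_fin_two]
    ring
  have kT := key T hT
  have kM := key M hM
  rw [e] at h1 ⊢
  have hc : (c - 1) * (c - T.det) = 0 := by linear_combination kT - c * h1
  rcases mul_eq_zero.1 hc with h | h
  · rw [sub_eq_zero] at h
    subst h
    linear_combination kM
  · rw [sub_eq_zero] at h
    subst h
    refine (mul_eq_zero.1 (show T.det * (M.det - M.trace + 1) = 0 from ?_)).resolve_left hd0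
    linear_combination kM + (T.det - 1) * hd

/-- Dependent vectors of the plane. -/
theorem exists_smul_eq {k : Type*} [Field k] (v w : Fin 2 → k) (hv : v ≠ 0)
    (h : v 0 * w 1 - v 1 * w 0 = 0) : ∃ a : k, w = a • v := by
  by_cases h0 : v 0 = 0
  · have h1 : v 1 ≠ 0 := fun h1 => hv (funext (Fin.forall_fin_two.2 ⟨h0, h1⟩))
    refine ⟨w 1 / v 1, funext (Fin.forall_fin_two.2 ⟨?_, ?_⟩)⟩
    · simp [h0, h1] at h ⊢
      exact h
    · rw [Pi.smul_apply, smul_eq_mul, div_mul_cancel₀ _ h1]
  · refine ⟨w 0 / v 0, funext (Fin.forall_fin_two.2 ⟨?_, ?_⟩)⟩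
    · rw [Pi.smul_apply, smul_eq_mul, div_mul_cancel₀ _ h0]
    · rw [Pi.smul_apply, smul_eq_mul, div_mul_eq_mul_div, eq_div_iff h0]
      linear_combination h

/-- A character congruent to one fixes the roots of unity of that level. -/
theorem mem_fixMu_pow_of_cycP {σ : GQ} {e : ℕ}
    (h : ((cycP p σ : ℤ_[p]ˣ) : ℤ_[p]).toZModPow e = 1) : σ ∈ fixMu (p ^ e) := by
  refine mem_fixMu.2 fun z hz => ?_
  have h1 := cyclotomicCharacter.spec p (σ : Qb ≃+* Qb) z hz
  refine h1.trans ?_
  show z ^ (((cycP p σ : ℤ_[p]ˣ) : ℤ_[p]).toZModPow e).val = z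
  rw [h]
  rcases Nat.eq_zero_or_pos e with rfl | he
  · rw [pow_zero, pow_one] at hz
    rw [hz, one_pow]
  · haveI : Fact (1 < p ^ e) := ⟨Nat.one_lt_pow he.ne' hp.out.one_lt⟩
    rw [ZMod.val_one, pow_one]

/-- A power of every element fixes the roots of unity of a given level. -/
theorem pow_mem_fixMu (σ : GQ) (e : ℕ) : σ ^ ((p - 1) * p ^ e) ∈ fixMu (p ^ e) := by
  refine mem_fixMu_pow_of_cycP ?_
  set u : (ZMod (p ^ e))ˣ := Units.map (PadicInt.toZModPow e).toMonoidHom (cycP p σ)
  have h : u ^ ((p - 1) * p ^ e) = 1 := by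
    rcases Nat.eq_zero_or_pos e with rfl | he
    · have : Subsingleton (ZMod (p ^ 0))ˣ := by rw [pow_zero]; infer_instance
      exact Subsingleton.elim _ _
    · obtain ⟨c, hc⟩ : Nat.totient (p ^ e) ∣ (p - 1) * p ^ e := by
        rw [Nat.totient_prime_pow hp.out he, mul_comm]
        exact mul_dvd_mul_left _ (pow_dvd_pow p (Nat.sub_le e 1))
      rw [hc, pow_mul, ZMod.pow_totient, one_pow]
  rw [map_pow, Units.val_pow_eq_pow_val, map_pow]
  exact congrArg Units.val h

/-- **Level two leaves no point**: an element whose power `(p - 1) p ^ e` fixes a nonzero vector. -/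
theorem not_isSSType_of_fixed {A : ValuationSubring Qb} (hA : A.LiesOverPrime p)
    {r : GQ →* M2 (ZMod p)}
    (hr : FA.LocalDef.IsSSType (p := p) A r) {v : Fin 2 → ZMod p} (hv : v ≠ 0) (e : ℕ)
    (hfix : ∀ g ∈ A.inertiaSubgroupIn ℚ, r g ^ ((p - 1) * p ^ e) *ᵥ v = v) : False := by
  obtain ⟨Λ, -, -, -, g, hg, -, hord, t, d, ht, hd, hroot⟩ := hr
  have := FA.LocalDef.res_charP hp.out hA
  set f : ZMod p →+* FA.LocalDef.Res A := ZMod.castHom (dvd_refl p) _
  set L := Λ.chi0 g
  set k := (p - 1) * p ^ e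
  set M := (r g).map f with hM
  set u : Fin 2 → FA.LocalDef.Res A := fun i => f (v i) with hu
  set L' := (t : FA.LocalDef.Res A) - L with hL'
  have hk : (M ^ k) *ᵥ u = u := by
    funext i
    rw [hM, ← RingHom.mapMatrix_apply, ← map_pow, RingHom.mapMatrix_apply, hu]
    exact (RingHom.map_mulVec f (r g ^ k) v i).symm.trans (by rw [hfix g hg])
  have hCH : (M - L • 1) * (M - L' • 1) = 0 := by
    have h := FA.LocalDef.mul_self_two M
    have htr : M.trace = (t : FA.LocalDef.Res A) := by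
      rw [hM, Matrix.trace_fin_two, Matrix.map_apply, Matrix.map_apply, ← map_add,
        ← Matrix.trace_fin_two, ht, map_natCast]
    have hdt : M.det = (d : FA.LocalDef.Res A) := by
      rw [hM, ← RingHom.mapMatrix_apply, ← RingHom.map_det, hd, map_natCast]
    rw [htr, hdt] at h
    rw [sub_mul, mul_sub, mul_sub, h, smul_mul_assoc, mul_smul_comm, mul_one, one_mul,
      smul_mul_assoc, one_mul, smul_smul]
    refine Matrix.ext fun i j => ?_
    simp only [Matrix.sub_apply, Matrix.smul_apply, Matrix.zero_apply, smul_eq_mul]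
    rw [hL']
    linear_combination (-(1 : Matrix (Fin 2) (Fin 2) (FA.LocalDef.Res A)) i j) * hroot
  set w := (M - L' • 1) *ᵥ u with hw
  have hMw : M *ᵥ w = L • w := by
    rw [← sub_eq_zero]
    calc M *ᵥ w - L • w = ((M - L • 1) * (M - L' • 1)) *ᵥ u := by
          rw [hw, ← mulVec_mulVec, sub_mulVec (M) (L • 1), smul_mulVec, one_mulVec]
      _ = 0 := by rw [hCH, zero_mulVec]
  have hMk : ∀ j : ℕ, (M ^ j) *ᵥ w = L ^ j • w := fun j => by
    induction j with
    | zero => simp
    | succ j ih => rw [pow_succ, ← mulVec_mulVec, hMw, mulVec_smul, ih, smul_smul, pow_succ']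
  have hw1 : (M ^ k) *ᵥ w = w := by
    rw [hw, mulVec_mulVec, mul_sub, mul_smul_comm, mul_one, ← pow_succ, pow_succ',
      sub_mulVec, ← mulVec_mulVec, smul_mulVec, hk, sub_mulVec, smul_mulVec, one_mulVec]
  have hp2 := hp.out.two_le
  have hlt : p - 1 < p ^ 2 - 1 := by
    have : p < p ^ 2 := by nlinarith
    omega
  have hLk : L ^ k ≠ 1 := fun h => by
    have h1 := orderOf_dvd_of_pow_eq_one h
    rw [hord] at h1
    have h2 : Nat.Coprime (p ^ 2 - 1) (p ^ e) := by
      refine Nat.Coprime.pow_right e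
        (Nat.Coprime.symm ((Nat.Prime.coprime_iff_not_dvd hp.out).2 ?_))
      intro hdv
      have h3 : p ∣ p ^ 2 := dvd_pow_self p two_ne_zero
      have h4 := Nat.dvd_sub h3 hdv
      rw [show p ^ 2 - (p ^ 2 - 1) = 1 by omega] at h4
      exact hp.out.not_dvd_one h4
    exact absurd (Nat.le_of_dvd (by omega) (h2.dvd_of_dvd_mul_right h1)) (not_le.2 hlt)
  have hw0 : w = 0 := by
    rw [hMk] at hw1
    by_contra hne
    obtain ⟨i, hi⟩ := Function.ne_iff.1 hne
    exact hLk (mul_right_cancel₀ hi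
      (by rw [one_mul, ← smul_eq_mul, ← Pi.smul_apply, hw1]))
  rw [hw, sub_mulVec, smul_mulVec, one_mulVec, sub_eq_zero] at hw0
  obtain ⟨i, hi⟩ := Function.ne_iff.1 hv
  have h3 : L' = f ((r g *ᵥ v) i / v i) := by
    rw [map_div₀, eq_div_iff (fun h0 => hi (f.injective (h0.trans (map_zero f).symm)))]
    exact ((congrFun hw0 i).trans (Pi.smul_apply _ _ _)).symm.trans
      (RingHom.map_mulVec f (r g) v i).symm
  have h4 : L = f ((t : ZMod p) - (r g *ᵥ v) i / v i) := by
    rw [map_sub, map_natCast, ← h3, hL', sub_sub_cancel]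
  set z := (t : ZMod p) - (r g *ᵥ v) i / v i
  have h5 : orderOf L ∣ p - 1 ∨ z = 0 := by
    by_cases hz : z = 0
    · exact Or.inr hz
    · exact Or.inl (orderOf_dvd_of_pow_eq_one
        (by rw [h4, ← map_pow, ZMod.pow_card_sub_one_eq_one hz, map_one]))
  rcases h5 with h5 | h5
  · rw [hord] at h5
    exact absurd (Nat.le_of_dvd (by omega) h5) (not_le.2 hlt)
  · rw [h4, h5, map_zero, orderOf_eq_zero_iff'.2 fun n hn => by
      rw [zero_pow hn.ne']; exact zero_ne_one] at hord
    omega

/-- **The element of `H` fixes a point of order `p`.** -/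
theorem exists_fixed_of_fixedOverCyc {F : IntermediateField ℚ Qb} {H : Subgroup GQ}
    (hHF : H ≤ F.fixingSubgroup)
    (hprop : ∀ (q : ℕ) [Fact q.Prime], ∀ σ ∈ H, ∃ τ ∈ H, τ ∈ (padicPlace q).inertiaSubgroupIn ℚ ∧
      cycP q τ = cycP q σ ∧ ∀ (p n : ℕ) (P : Pts W), p.Prime → p ≠ q → p ^ n • P = 0 → τ • P = P)
    (hIH : (padicPlace p).inertiaSubgroupIn ℚ ≤ H) (hp2 : p ≠ 2) (hgood : W.IsGoodPrimeFor p)
    {P : Pts W} (hP0 : P ≠ 0) (hpP : p • P = 0) (hP : FixedOverCyc F P) {σ : GQ} (hσ : σ ∈ H) :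
    ∃ Q : Pts W, p • Q = 0 ∧ Q ≠ 0 ∧ σ • Q = Q := by
  have hA := FA.GalCoh.liesOverPrime_padicPlace p
  set b := (torsBasis (p := p) W).equivFun
  set v := b ⟨P, (mem_torsion_iff W).2 hpP⟩
  have hv : v ≠ 0 := fun h0 => hP0 (congrArg Subtype.val (b.map_eq_zero_iff.1 h0))
  -- inertia has the eigenvalue one
  have hord : ∀ τ ∈ (padicPlace p).inertiaSubgroupIn ℚ, (curveRep p W τ - 1).det = 0 := by
    rcases FA.LocalDef.flat_residual_type hA hp2 (detOmega_curveRep W (padicPlace p))
      (isFlatRes_curveRep W hA hgood) with ⟨l, hl, -, hI⟩ | hss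
    · intro τ hτ
      obtain ⟨s₀, hs₀⟩ := hI τ hτ (Pi.single 0 1)
      obtain ⟨s₁, hs₁⟩ := hI τ hτ (Pi.single 1 1)
      have e00 := congrFun hs₀ 0
      have e10 := congrFun hs₀ 1
      have e01 := congrFun hs₁ 0
      have e11 := congrFun hs₁ 1
      simp at e00 e10 e01 e11
      rw [Matrix.det_fin_two]
      simp [e00, e10, e01, e11]
      ring
    · obtain ⟨e, he⟩ := exists_level_descent hHF hprop (k := 1) (by rwa [pow_one]) hP
      refine (not_isSSType_of_fixed hA hss hv e fun g hg => ?_).elim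
      obtain ⟨hgP, hcoord⟩ := curveRep_coords (σ := g ^ ((p - 1) * p ^ e)) hpP
      rw [← map_pow, hcoord]
      refine congrArg b (Subtype.ext ?_)
      exact he _ (pow_mem (hIH hg) _) (pow_mem_fixMu g e)
  refine exists_fixed_of_det ?_
  obtain ⟨τ, hτH, hτI, hτc, -⟩ := hprop p σ hσ
  set h := τ⁻¹ * σ
  have hhH : h ∈ H := mul_mem (inv_mem hτH) hσ
  have hhc : cycP p h = 1 := by rw [map_mul, map_inv, hτc, inv_mul_cancel]
  have hhfix : ∀ e, h ∈ fixMu (p ^ e) := fun e =>
    mem_fixMu_pow_of_cycP (by rw [hhc, Units.val_one, map_one])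
  have hfixes : ∀ R : Pts W, p • R = 0 → FixedOverCyc F R → h • R = R := fun R hR hR' => by
    obtain ⟨e, he⟩ := exists_level_descent hHF hprop (k := 1) (by rwa [pow_one]) hR'
    exact he h hhH (hhfix e)
  have hdet : (curveRep p W h).det = 1 := by
    rw [det_curveRep W h 1 fun μ hμ => by
      rw [pow_one]; exact mem_fixMu.1 (hhfix 1) μ (by rwa [pow_one]), Nat.cast_one]
  obtain ⟨hτP, hTv⟩ := curveRep_coords (σ := τ) hpP
  have hτR : FixedOverCyc F (τ • P) := fun ρ hρ hroots => by
    have h1 := hP (τ⁻¹ * ρ * τ) (mul_mem (mul_mem (inv_mem (hHF hτH)) hρ) (hHF hτH))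
      fun n z hn hz => by
        rw [AlgEquiv.mul_apply, AlgEquiv.mul_apply,
          hroots n _ hn (by rw [← map_pow, hz, map_one]), ← AlgEquiv.mul_apply, inv_mul_cancel,
          AlgEquiv.one_apply]
    rw [mul_smul, mul_smul, inv_smul_eq_iff] at h1
    exact h1
  have hhv : curveRep p W h *ᵥ v = v := by
    obtain ⟨_, hc⟩ := curveRep_coords (σ := h) hpP
    rw [hc]
    exact congrArg b (Subtype.ext (hfixes P hpP hP))
  have hhTv : curveRep p W h *ᵥ (curveRep p W τ *ᵥ v) = curveRep p W τ *ᵥ v := by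
    obtain ⟨_, hc⟩ := curveRep_coords (σ := h) hτP
    rw [hTv, hc]
    exact congrArg b (Subtype.ext (hfixes _ hτP hτR))
  have hσ' : curveRep p W σ = curveRep p W τ * curveRep p W h := by
    rw [← map_mul, mul_inv_cancel_left]
  set T := curveRep p W τ
  by_cases hdd : v 0 * (T *ᵥ v) 1 - v 1 * (T *ᵥ v) 0 = 0
  · obtain ⟨c, hc⟩ := exists_smul_eq v (T *ᵥ v) hv hdd
    refine det_sub_one_of_eigen hv hc (by rw [hσ', ← mulVec_mulVec, hhv, hc])
      (by rw [hσ', det_mul, hdet, mul_one]) ?_ (hord τ hτI)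
    exact ((Matrix.isUnit_iff_isUnit_det _).1 ((Group.isUnit τ).map (curveRep p W))).ne_zero
  · have h1 : curveRep p W h = 1 := by
      set X := curveRep p W h
      have a0 := congrFun hhv 0
      have a1 := congrFun hhv 1
      have b0 := congrFun hhTv 0
      have b1 := congrFun hhTv 1
      simp only [Matrix.mulVec, dotProduct, Fin.sum_univ_two] at a0 a1 b0 b1 hdd
      refine Matrix.ext fun i j => ?_
      fin_cases i <;> fin_cases j <;>
        simp only [Fin.zero_eta, Fin.mk_one, Fin.isValue, Matrix.one_apply_eq, ne_eq, zero_ne_one,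
          one_ne_zero, not_false_eq_true, Matrix.one_apply_ne] <;>
        refine mul_left_cancel₀ hdd ?_
      · linear_combination (T 1 0 * v 0 + T 1 1 * v 1) * a0 - v 1 * b0
      · linear_combination v 0 * b0 - (T 0 0 * v 0 + T 0 1 * v 1) * a0
      · linear_combination (T 1 0 * v 0 + T 1 1 * v 1) * a1 - v 1 * b1
      · linear_combination v 0 * b1 - (T 0 0 * v 0 + T 0 1 * v 1) * a1
    rw [hσ', h1, mul_one]
    exact hord τ hτI

end FA.CycTorsion
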