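import Fermat.Agent.CyclotomicTorsion.LargePrime
import Fermat.Agent.Imai.Global

/-!
# Torsion over `F (μ_∞)`

For every elliptic curve over `ℚ` and every number field `F` only finitely many torsion points are
rational over the field generated by `F` and all roots of unity.
-/

set_option autoImplicit false
set_option linter.unusedSectionVars false
set_option linter.style.haveILetI false

noncomputable section

open WeierstrassCurve FA.TateSen FA.Frob FA.EC FA.Local FA.RT.Tate FA.JTorsion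
open scoped WeierstrassCurve.Affine Classical

namespace FA.CycTorsion

local notation "Qb" => AlgebraicClosure ℚ
local notation "GQ" => AlgebraicClosure ℚ ≃ₐ[ℚ] AlgebraicClosure ℚ

variable {W : WeierstrassCurve ℤ} [(ratCurve W).IsElliptic]

theorem fixedOverCyc_nsmul {F : IntermediateField ℚ Qb} {P : Pts W} (hP : FixedOverCyc F P)
    (m : ℕ) : FixedOverCyc F (m • P) := fun σ hσ hroots => by
  rw [FA.RT.Tate.gal_smul_nsmul, hP σ hσ hroots]

/-- **Almost all primes**: beyond a bound no point of prime order is fixed. -/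
theorem exists_prime_bound (hj : ∀ l : ℕ, l.Prime → 0 ≤ padicValRat l (ratCurve W).j)
    (F : IntermediateField ℚ Qb) [FiniteDimensional ℚ F] :
    ∃ b : ℕ, ∀ p : ℕ, p.Prime → b < p →
      ∀ P : Pts W, p • P = 0 → FixedOverCyc F P → P = 0 := by
  obtain ⟨H, b₀, hH, hHF, hIH, hprop⟩ := exists_subgroup hj F
  have hΔ : W.Δ ≠ 0 := fun h => (ratCurve W).isUnit_Δ.ne_zero (by simp [ratCurve, h])
  obtain ⟨q, hq, hqp⟩ := Nat.exists_infinite_primes (W.Δ.natAbs + 1)
  have hgood : ∀ l : ℕ, W.Δ.natAbs < l → W.IsGoodPrimeFor l := fun l hl h => by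
    have := Nat.le_of_dvd (Int.natAbs_pos.mpr hΔ) (Int.natCast_dvd.mp h)
    omega
  obtain ⟨A, hA⟩ := FA.Deform.exists_liesOverPrime hqp
  obtain ⟨φ, hφ⟩ := FA.Deform.exists_isFrobeniusAt hqp hA
  have : Finite (GQ ⧸ H) := Subgroup.quotient_finite_of_isOpen H hH
  have : H.FiniteIndex := Subgroup.finiteIndex_of_finite_quotient
  obtain ⟨f, hf, -, hφH⟩ := Subgroup.exists_pow_mem_of_index_ne_zero
    (Subgroup.FiniteIndex.index_ne_zero (H := H)) φ
  haveI := Fact.mk hqp
  set N : ℤ := (q : ℤ) ^ f + 1 - FA.HasseBound.pointTrace (W.apOfModel q) q f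
  have hN : N ≠ 0 := by
    haveI : (W.reductionMod q).IsElliptic := ⟨by
      rw [reductionMod, WeierstrassCurve.map_Δ]
      exact (Ne.isUnit fun h => hgood q (by omega)
        ((ZMod.intCast_zmod_eq_zero_iff_dvd _ q).mp h))⟩
    exact FA.TorsionNumberField.pointTrace_ne
      (FA.HasseBound.traceOfFrobenius_sq_le (W.reductionMod q)) hqp.one_lt hf.ne'
  refine ⟨max (max b₀ W.Δ.natAbs) (max q N.natAbs) + 2, fun p hp hbp P hpP hP => ?_⟩
  haveI := Fact.mk hp
  by_contra hP0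
  obtain ⟨Q, hpQ, hQ0, hQ⟩ := exists_fixed_of_fixedOverCyc hHF hprop (hIH p (by omega))
    (by omega) (hgood p (by omega)) hP0 hpP hP hφH
  have h1 := FA.TorsionNumberField.nsmul_eq_zero_of_fixed (l := p) hqp (by omega)
    (hgood q (by omega)) hA hφ (v := 1) (by rwa [pow_one]) hQ
  have h2 := addOrderOf_dvd_iff_zsmul_eq_zero.2 h1
  rw [addOrderOf_eq_prime hpQ hQ0, Int.natCast_dvd] at h2
  have := Nat.le_of_dvd (Int.natAbs_pos.2 hN) h2
  omega

/-- Each prime contributes a bounded order. -/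
theorem exists_exponent_bound (hj : ∀ l : ℕ, l.Prime → 0 ≤ padicValRat l (ratCurve W).j)
    (F : IntermediateField ℚ Qb) [FiniteDimensional ℚ F] (p : ℕ) [hp : Fact p.Prime] :
    ∃ e : ℕ, ∀ P : Pts W, (∃ n, p ^ n • P = 0) → FixedOverCyc F P → p ^ e • P = 0 := by
  obtain ⟨H, -, hH, hHF, -, hprop⟩ := exists_subgroup hj F
  have hfin : {P : Pts W | (∃ n, p ^ n • P = 0) ∧ FixedOverCyc F P}.Finite :=
    (FA.Imai.finite_fixed_pow (hj p hp.out) (U := H.comap (localGaloisToGlobal p))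
      (hH.preimage FA.GalCoh.continuous_loc)).subset fun P hP => ⟨hP.1, fun τ hτ hχ => by
        obtain ⟨n, hn⟩ := hP.1
        obtain ⟨e, he⟩ := exists_level_descent hHF hprop hn hP.2
        exact he _ hτ (mem_fixMu.2 fun z hz => FA.LocIrr.loc_apply_root_of_chi hχ hz)⟩
  choose! n hn using fun Q (hQ : Q ∈ {P : Pts W | (∃ n, p ^ n • P = 0) ∧ FixedOverCyc F P}) =>
    hQ.1
  refine ⟨hfin.toFinset.sup n, fun P hp' hP => ?_⟩
  have hmem : P ∈ {P : Pts W | (∃ n, p ^ n • P = 0) ∧ FixedOverCyc F P} := ⟨hp', hP⟩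
  rw [← Nat.sub_add_cancel (Finset.le_sup (f := n) (hfin.mem_toFinset.2 hmem)), pow_add,
    mul_nsmul', hn P hmem, nsmul_zero]

/-- **`j` everywhere integral.** -/
theorem finite_torsion_of_integral (hj : ∀ l : ℕ, l.Prime → 0 ≤ padicValRat l (ratCurve W).j)
    (F : IntermediateField ℚ Qb) [FiniteDimensional ℚ F] :
    {P : Pts W | IsOfFinAddOrder P ∧ FixedOverCyc F P}.Finite := by
  obtain ⟨b, hb⟩ := exists_prime_bound hj F
  have hexp : ∀ p : ℕ, ∃ e : ℕ, p.Prime → ∀ P : Pts W, (∃ n, p ^ n • P = 0) →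
      FixedOverCyc F P → p ^ e • P = 0 := fun p => by
    by_cases hp : p.Prime
    · haveI := Fact.mk hp
      obtain ⟨e, he⟩ := exists_exponent_bound hj F p
      exact ⟨e, fun _ => he⟩
    · exact ⟨0, fun h => absurd h hp⟩
  choose e he using hexp
  set D := ∏ p ∈ (Finset.range (b + 1)).filter Nat.Prime, p ^ e p
  have hD : D ≠ 0 := Finset.prod_ne_zero_iff.2 fun p hp =>
    pow_ne_zero _ (Finset.mem_filter.1 hp).2.ne_zero
  haveI : Finite (Submodule.torsionBy ℤ ((ratCurve W)⁄Qb).Point (D : ℤ)) :=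
    FA.EC.finite_torsion (ratCurve W) hD
  refine (Set.finite_range fun Q : Submodule.torsionBy ℤ ((ratCurve W)⁄Qb).Point (D : ℤ) =>
    (Q.1 : Pts W)).subset ?_
  rintro P ⟨hPfin, hP⟩
  refine ⟨⟨P, (mem_torsion_iff W).2 (addOrderOf_dvd_iff_nsmul_eq_zero.1 ?_)⟩, rfl⟩
  refine (Nat.dvd_iff_prime_pow_dvd_dvd _ _).2 fun p k hp hk => ?_
  obtain ⟨c, hc⟩ := hk
  have hc0 : c ≠ 0 := fun h => hPfin.addOrderOf_pos.ne' (by rw [hc, h, mul_zero])
  have hord : addOrderOf (c • P) = p ^ k := by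
    rw [addOrderOf_nsmul' P hc0, hc, Nat.gcd_eq_right (dvd_mul_left c _),
      Nat.mul_div_cancel _ (Nat.pos_of_ne_zero hc0)]
  rcases Nat.eq_zero_or_pos k with rfl | hk
  · simp
  have hle : p ≤ b := by
    by_contra hlt
    have h0 := hb p hp (not_le.1 hlt) (p ^ (k - 1) • (c • P))
      (by rw [← mul_nsmul', ← pow_succ', Nat.sub_add_cancel hk, ← hord,
        addOrderOf_nsmul_eq_zero])
      (fixedOverCyc_nsmul (fixedOverCyc_nsmul hP c) _)
    have h1 := addOrderOf_dvd_of_nsmul_eq_zero h0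
    rw [hord, Nat.pow_dvd_pow_iff_le_right hp.one_lt] at h1
    omega
  have h2 := addOrderOf_dvd_of_nsmul_eq_zero (he p hp (c • P)
    ⟨k, by rw [← hord, addOrderOf_nsmul_eq_zero]⟩ (fixedOverCyc_nsmul hP c))
  rw [hord] at h2
  exact h2.trans (Finset.dvd_prod_of_mem (fun p => p ^ e p)
    (Finset.mem_filter.2 ⟨Finset.mem_range.2 (Nat.lt_succ_of_le hle), hp⟩))

/-- **Ribet's theorem for elliptic curves over `ℚ`**: finitely many torsion points over
`F (μ_∞)`. -/
theorem finite_torsion_fixedOverCyc (F : IntermediateField ℚ Qb) [FiniteDimensional ℚ F] :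
    {P : Pts W | IsOfFinAddOrder P ∧ FixedOverCyc F P}.Finite := by
  by_cases hj : ∀ l : ℕ, l.Prime → 0 ≤ padicValRat l (ratCurve W).j
  · exact finite_torsion_of_integral hj F
  push Not at hj
  refine (FA.Summary.finite_torsion_abelian_of_pole (ratCurve W) hj F).subset
    fun P hP => ⟨hP.1, fun σ hσ τ hτ => ?_⟩
  exact hP.2 _ (mul_mem (mul_mem (mul_mem hσ hτ) (inv_mem hσ)) (inv_mem hτ))
    fun n z hn hz => FA.Imai.commutator_fixes_root σ τ hn.ne' hz

end FA.CycTorsion
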